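/-
C1 nodal core, instantiation, block G (helper95): definitions for `F = FN (M q)`, `F' = FN M`.

* `IsAL w`    : `w` is the Atkin-Lehner involution (`w α = β`, `w β = α`);
* `BaseOK x'` : what the trace trick needs from the base `x'` (`j`, `h₂`, `h₃`, or their inverses);
* `xx x' = α x' * β x'`, `vv x' = β x' / (α x') ^ q`.
-/
import Fermat.Agent.S34.ALInv
import Fermat.Agent.S34.Nodal.Inst.Defs

set_option autoImplicit false

noncomputable section

namespace Fermat.Agent.S34.Nodal.Inst

open ModularCurve AlgebraicCurve Fermat.Agent.S18.Vert Fermat.Agent.S24 Fermat.Agent.S24.B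
  Fermat.Agent.GAL Fermat.Agent.GAL.E

variable (M q : ℕ) [NeZero M] [NeZero q]

/-- `w` is the Atkin-Lehner involution at `q`. -/
structure IsAL (w : FN (M * q) ≃ₐ[Kbar] FN (M * q)) : Prop where
  al : ∀ x : FN M, w (heckeAlphaBar Kbar M q x) = heckeBetaBar Kbar M q x
  be : ∀ x : FN M, w (heckeBetaBar Kbar M q x) = heckeAlphaBar Kbar M q x

variable {M q}

theorem IsAL.w_w {w : FN (M * q) ≃ₐ[Kbar] FN (M * q)} (hw : IsAL M q w) (hq : q.Prime)
    (f : FN (M * q)) : w (w f) = f := by
  induction f using FN_induction_alpha_beta M q hq with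
  | hα x => rw [hw.al, hw.be]
  | hβ x => rw [hw.be, hw.al]
  | hadd f g hf hg => rw [map_add, map_add, hf, hg]
  | hneg f hf => rw [map_neg, map_neg, hf]
  | hmul f g hf hg => rw [map_mul, map_mul, hf, hg]
  | hinv f hf => rw [map_inv₀, map_inv₀, hf]

variable (M q) in
/-- What the trace trick needs from the base `x'`. -/
structure BaseOK (x' : FN M) : Prop where
  ne_zero : x' ≠ 0
  /-- `β x'` is integral over `ℚ̄[α x']` (the poles of `β x'` are poles of `α x'`) -/
  be_int : IsIntegral (Algebra.adjoin Kbar {heckeAlphaBar Kbar M q x'}) (heckeBetaBar Kbar M q x')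
  /-- `v = β x' / (α x') ^ q` is integral over `ℚ̄[1 / α x']` -/
  v_int : IsIntegral (Algebra.adjoin Kbar {(heckeAlphaBar Kbar M q x')⁻¹})
    (heckeBetaBar Kbar M q x' / heckeAlphaBar Kbar M q x' ^ q)
  /-- `x'` has integral coefficients and is not zero modulo `q` -/
  ser : ∃ X : LaurentSeries ℤ, (x' : LaurentSeries Kbar) = coeffMap (Int.castRingHom Kbar) X ∧
    coeffMap (Int.castRingHom (ZMod q)) X ≠ 0

/-- The coordinate `x = α x' * β x'`. -/
def xx (x' : FN M) : FN (M * q) := heckeAlphaBar Kbar M q x' * heckeBetaBar Kbar M q x'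

theorem IsAL.w_xx {w : FN (M * q) ≃ₐ[Kbar] FN (M * q)} (hw : IsAL M q w) (x' : FN M) :
    w (xx x') = xx x' := by
  rw [xx, map_mul, hw.al, hw.be]
  exact mul_comm _ _

/-- `v = β x' / (α x') ^ q`. -/
def vv (x' : FN M) : FN (M * q) := heckeBetaBar Kbar M q x' / heckeAlphaBar Kbar M q x' ^ q

end Fermat.Agent.S34.Nodal.Inst

end
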