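/-
C1 nodal core, instantiation, block G (helper95).  The `q`-expansion of the trace along
`α : X₀(M q) → X₀(M)`: thin wrapper around `Fermat.Agent.C1.qExpand_traceAlpha` (helper148).
-/
import Fermat.Agent.C1.Mod.Trace

set_option autoImplicit false

noncomputable section

namespace Fermat.Agent.S34.Nodal.Inst

open ModularCurve AlgebraicCurve Fermat.Agent.S24 Fermat.Agent.S24.B Fermat.Agent.GAL
  Fermat.Agent.GAL.E

/-- The trace along `α`. -/
def traceAlpha (M q : ℕ) [NeZero M] [NeZero q] : FN (M * q) → FN M :=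
  letI := algAlpha M q
  Algebra.trace (FN M) (FN (M * q))

theorem qExpand_traceAlpha (M q : ℕ) [NeZero M] [NeZero q] (hq : q.Prime) (hqM : ¬ q ∣ M)
    (w : FN (M * q) →ₐ[Kbar] FN (M * q))
    (hw1 : ∀ x : FN M, w (heckeAlphaBar Kbar M q x) = heckeBetaBar Kbar M q x)
    (hw2 : ∀ x : FN M, w (heckeBetaBar Kbar M q x) = heckeAlphaBar Kbar M q x)
    (u : FN (M * q)) :
    qExpand Kbar q ((traceAlpha M q u : FN M) : LaurentSeries Kbar) =
      qExpand Kbar q (u : LaurentSeries Kbar) +
        ∑ b ∈ Finset.range q, twist (zetaK q ^ b) ((w u : FN (M * q)) : LaurentSeries Kbar) :=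
  C1.qExpand_traceAlpha M q hq hqM w hw1 hw2 u

end Fermat.Agent.S34.Nodal.Inst

end
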