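/-
C1 nodal core, instantiation, block G (helper95).  TASK G-M5: integrality of the trace along `α`.
-/
import Fermat.Agent.S34.Nodal.Inst.G.Mod.Defs
import Fermat.Agent.S34.Nodal.Inst.G.Mod.Trace
import Fermat.Agent.S34.Nodal.Inst.G.Integral
import Fermat.Agent.GAL.E.Degree

set_option autoImplicit false
set_option linter.style.haveILetI false

noncomputable section

namespace Fermat.Agent.S34.Nodal.Inst

open ModularCurve AlgebraicCurve Fermat.Agent.S18.Vert Fermat.Agent.S24 Fermat.Agent.S24.B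
  Fermat.Agent.GAL Fermat.Agent.GAL.E

variable {M q : ℕ} [NeZero M] [NeZero q]

/-- Proof: `isIntegral_trace_adjoin` for the algebra structure `algAlpha M q`
(`IsScalarTower Kbar (FN M) (FN (M * q))` from `AlgHom.commutes`; finiteness:
`GAL.E.finite_algAlpha`). -/
theorem isIntegral_traceAlpha {x' : FN M} {y : FN (M * q)}
    (hy : IsIntegral (Algebra.adjoin Kbar {heckeAlphaBar Kbar M q x'}) y) :
    IsIntegral (Algebra.adjoin Kbar {x'}) (traceAlpha M q y) := by
  letI := algAlpha M q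
  haveI : IsScalarTower Kbar (FN M) (FN (M * q)) :=
    IsScalarTower.of_algebraMap_eq fun c => ((heckeAlphaBar Kbar M q).commutes c).symm
  haveI : FiniteDimensional (FN M) (FN (M * q)) := finite_algAlpha M q
  exact isIntegral_trace_adjoin (K := Kbar) (F' := FN M) (F := FN (M * q)) (x' := x') hy

/-- Proof: `xx x'` is integral over `ℚ̄[α x']` (`be_int`), `isIntegral_adjoin_trans`,
`isIntegral_traceAlpha`. -/
theorem isIntegral_traceAlpha_of_xx {x' : FN M} (hx : BaseOK M q x') {y : FN (M * q)}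
    (hy : IsIntegral (Algebra.adjoin Kbar {xx (q := q) x'}) y) :
    IsIntegral (Algebra.adjoin Kbar {x'}) (traceAlpha M q y) := by
  have h1 : IsIntegral (Algebra.adjoin Kbar {heckeAlphaBar Kbar M q x'})
      (heckeAlphaBar Kbar M q x') :=
    isIntegral_algebraMap (R := Algebra.adjoin Kbar {heckeAlphaBar Kbar M q x'})
      (x := ⟨heckeAlphaBar Kbar M q x', Algebra.subset_adjoin (Set.mem_singleton _)⟩)
  exact isIntegral_traceAlpha (isIntegral_adjoin_trans (h1.mul hx.be_int) hy)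

/-- Proof: `isIntegral_mul_pow` with `a = (α x')⁻¹ = α x'⁻¹`, `b = (β x')⁻¹`:
`a * b = (xx x')⁻¹`, `a ^ q / b = vv x'`; then `isIntegral_traceAlpha` for `x'⁻¹`. -/
theorem exists_isIntegral_traceAlpha_of_xx_inv {x' : FN M} (hx : BaseOK M q x') {y : FN (M * q)}
    (hy : IsIntegral (Algebra.adjoin Kbar {(xx (q := q) x')⁻¹}) y) :
    ∃ e : ℕ, IsIntegral (Algebra.adjoin Kbar {x'⁻¹}) (traceAlpha M q (y * vv x' ^ e)) := by
  have hb : (heckeBetaBar Kbar M q x')⁻¹ ≠ 0 :=
    inv_ne_zero ((map_ne_zero (heckeBetaBar Kbar M q)).2 hx.ne_zero)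
  have hvv : (heckeAlphaBar Kbar M q x')⁻¹ ^ q / (heckeBetaBar Kbar M q x')⁻¹ = vv x' := by
    rw [vv, div_inv_eq_mul, inv_pow, div_eq_mul_inv]
    exact mul_comm _ _
  have hab : (heckeAlphaBar Kbar M q x')⁻¹ * (heckeBetaBar Kbar M q x')⁻¹ = (xx (q := q) x')⁻¹ := by
    rw [xx, mul_inv]
  obtain ⟨e, he⟩ := isIntegral_mul_pow (K := Kbar) (a := (heckeAlphaBar Kbar M q x')⁻¹)
    (b := (heckeBetaBar Kbar M q x')⁻¹) (y := y) q hb (by rw [hvv]; exact hx.v_int)
    (by rw [hab]; exact hy)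
  refine ⟨e, isIntegral_traceAlpha ?_⟩
  rw [map_inv₀, ← hvv]
  exact he

end Fermat.Agent.S34.Nodal.Inst

end
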