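/-
C1 nodal core, instantiation, block G (helper95).  TASK G-M1.
The Gauss ring of `FN N` is a valuation ring (`IsVal`), twists by `q`-th roots of unity are integral
with trivial reduction.

Proofs.
`isVal_FN`: `GAL.E.exists_scaling`: `u = c * (x / y)`, `x`, `y` integral series in `FN N` with non
zero reductions.  If `c ∈ A` then `u * inc y = inc (C c * x)`, so `u` is Gauss integral.  Otherwise
`c⁻¹ ∈ A` is a non unit, `u⁻¹ * inc x = inc (C c⁻¹ * y)`, `u⁻¹` is Gauss integral and by `rho_spec`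
`rho u⁻¹ * red x = red (C c⁻¹ * y) = C (residue c⁻¹) * red y = 0`.
(`GAL.E.incl A`, `GAL.E.red A` are reducible abbreviations of `coeffMap ..`; `S18.Vert.inc A`,
`S18.Vert.red A` are definitions unfolding to the same terms: `rfl` / `show`.)
`isIntHom_twist`: this is `GAL.E.exists_twist`.
-/
import Fermat.Agent.S34.Nodal.Inst.G.HasRed
import Fermat.Agent.GAL.E.Scaling
import Fermat.Agent.GAL.E.Frob

set_option autoImplicit false

noncomputable section

namespace Fermat.Agent.S34.Nodal.Inst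

open ModularCurve AlgebraicCurve Fermat.Agent.S18.Vert Fermat.Agent.S24 Fermat.Agent.S24.B
  Fermat.Agent.GAL.E

theorem isVal_FN (A : ValuationSubring Kbar) (ℓ : ℕ) (hℓ : ℓ.Prime) (hA : A.LiesOverPrime ℓ)
    (N : ℕ) : IsVal A (modularFunctionFieldBar N) := by
  intro u hu
  obtain ⟨c, x, y, hx, hy, hc, hrx, hry, e⟩ := exists_scaling A ℓ hℓ hA N u hu
  have hrx' : Fermat.Agent.S18.Vert.red A x ≠ 0 := hrx
  have hry' : Fermat.Agent.S18.Vert.red A y ≠ 0 := hry
  have hx' : inc A x ∈ modularFunctionFieldBar N := hx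
  have hy' : inc A y ∈ modularFunctionFieldBar N := hy
  have hx0 : inc A x ≠ 0 := inc_ne_zero' hrx'
  have hy0 : inc A y ≠ 0 := inc_ne_zero' hry'
  have eu : (u : LaurentSeries Kbar) =
      algebraMap Kbar (LaurentSeries Kbar) c * (inc A x / inc A y) := by
    rw [e]
    rfl
  have hc' : algebraMap Kbar (LaurentSeries Kbar) c ≠ 0 :=
    (map_ne_zero_iff _ (algebraMap Kbar (LaurentSeries Kbar)).injective).2 hc
  by_cases hcA' : c ∈ A
  · left
    refine ⟨HahnSeries.C (⟨c, hcA'⟩ : A) * x, y, ?_, hy', hry', ?_⟩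
    · rw [map_mul]
      exact mul_mem (inc_C_mem _) hx'
    · rw [map_mul, inc_C, eu]
      field_simp
  · have hcA : c⁻¹ ∈ A := (A.mem_or_inv_mem c).resolve_left hcA'
    · right
      have eu' : ((u⁻¹ : FN N) : LaurentSeries Kbar) * inc A x =
          inc A (HahnSeries.C (⟨c⁻¹, hcA⟩ : A) * y) := by
        rw [map_mul, inc_C, IntermediateField.coe_inv, eu, map_inv₀]
        field_simp
      have hmem : u⁻¹ ∈ gaussSubring A (modularFunctionFieldBar N) := by
        refine ⟨HahnSeries.C (⟨c⁻¹, hcA⟩ : A) * y, x, ?_, hx', hrx', eu'⟩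
        rw [map_mul]
        exact mul_mem (inc_C_mem _) hy'
      refine ⟨hmem, ?_⟩
      have h1 := rho_spec (⟨u⁻¹, hmem⟩ : gaussSubring A (modularFunctionFieldBar N)) hrx' eu'
      have hres : IsLocalRing.residue A (⟨c⁻¹, hcA⟩ : A) = 0 := by
        rw [IsLocalRing.residue_eq_zero_iff, IsLocalRing.mem_maximalIdeal, mem_nonunits_iff]
        intro hunit
        apply hcA'
        obtain ⟨w, hw⟩ := hunit
        have h2 : ((w⁻¹ : Aˣ) : A) * (⟨c⁻¹, hcA⟩ : A) = 1 := by rw [← hw]; simp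
        have h3 : (((w⁻¹ : Aˣ) : A) : Kbar) * c⁻¹ = 1 := congrArg Subtype.val h2
        have h4 : c = (((w⁻¹ : Aˣ) : A) : Kbar) := by
          field_simp at h3
          exact h3.symm
        rw [h4]
        exact Subtype.mem _
      rw [map_mul, red_C, hres, map_zero, zero_mul] at h1
      exact (mul_eq_zero.mp h1).resolve_right hrx'

theorem isIntHom_twist (A : ValuationSubring Kbar) (ℓ : ℕ) (hℓ : ℓ.Prime) (hA : A.LiesOverPrime ℓ)
    (ζ : Kbarˣ) (hζ : ζ ^ ℓ = 1) : IsIntHom A (twist ζ) (RingHom.id _) := by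
  intro P
  obtain ⟨P', h1, h2⟩ := Fermat.Agent.GAL.E.exists_twist A ℓ hℓ hA ζ hζ P
  exact ⟨P', h1, h2⟩

/-- A series level criterion for membership in the Gauss ring of `FN N`. -/
theorem mem_gauss_FN_of_hasRed (A : ValuationSubring Kbar) (ℓ : ℕ) (hℓ : ℓ.Prime)
    (hA : A.LiesOverPrime ℓ) (N : ℕ) (y : FN N) {r : LaurentSeries (kk A)}
    (h : HasRed A (y : LaurentSeries Kbar) r) :
    ∃ hy : y ∈ gaussSubring A (modularFunctionFieldBar N),
      rho A (modularFunctionFieldBar N) ⟨y, hy⟩ = r := by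
  have hid : IsIntHom A (RingHom.id (LaurentSeries Kbar)) (RingHom.id _) := fun P => ⟨P, rfl, rfl⟩
  exact (isVal_FN A ℓ hℓ hA N).mem_of_hasRed hid y h

end Fermat.Agent.S34.Nodal.Inst

end
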