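/-
C1 nodal core, instantiation, block G (helper95).  TASK G-M4: `v = β x' / (α x') ^ q` is integral at
both valuations and `≡ 1` at `v_∞`.
-/
import Fermat.Agent.S34.Nodal.Inst.G.Mod.Defs
import Fermat.Agent.S34.Nodal.Inst.G.Mod.Val
import Fermat.Prelude.Thm_ModularCurve_coeffMap_qExpand

set_option autoImplicit false

noncomputable section

namespace Fermat.Agent.S34.Nodal.Inst

open ModularCurve AlgebraicCurve Fermat.Agent.S18.Vert Fermat.Agent.S24 Fermat.Agent.S24.B
  Fermat.Agent.GAL Fermat.Agent.GAL.E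

variable {M q : ℕ} [NeZero M] [NeZero q]

namespace VVAux

/-- the integer series `X` with coefficients in `A`. -/
def XA (A : ValuationSubring Kbar) (X : LaurentSeries ℤ) : LaurentSeries A :=
  coeffMap (Int.castRingHom A) X

theorem inc_XA (A : ValuationSubring Kbar) (X : LaurentSeries ℤ) :
    inc A (XA A X) = coeffMap (Int.castRingHom Kbar) X := by
  ext n
  simp [XA]

theorem red_XA (A : ValuationSubring Kbar) (X : LaurentSeries ℤ) :
    S18.Vert.red A (XA A X) = coeffMap (Int.castRingHom (kk A)) X := by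
  ext n
  simp [XA]

theorem red_XA_ne_zero (hq : q.Prime) (A : ValuationSubring Kbar) (hA : A.LiesOverPrime q)
    {X : LaurentSeries ℤ} (hX : coeffMap (Int.castRingHom (ZMod q)) X ≠ 0) :
    S18.Vert.red A (XA A X) ≠ 0 := by
  have := charP_residueField A q hq hA
  obtain ⟨n, hn⟩ : ∃ n, (coeffMap (Int.castRingHom (ZMod q)) X).coeff n ≠ 0 := by
    by_contra hcon
    simp only [not_exists, not_not] at hcon
    exact hX (HahnSeries.ext (funext hcon))
  rw [coeffMap_coeff, Int.coe_castRingHom, Ne, ZMod.intCast_zmod_eq_zero_iff_dvd] at hn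
  intro h0
  have h1 : (S18.Vert.red A (XA A X)).coeff n = 0 := by rw [h0, HahnSeries.coeff_zero]
  rw [red_XA, coeffMap_coeff, Int.coe_castRingHom, CharP.intCast_eq_zero_iff (kk A) q] at h1
  exact hn h1

theorem inc_qExpand (A : ValuationSubring Kbar) (P : LaurentSeries A) :
    inc A (qExpand A q P) = qExpand Kbar q (inc A P) := coeffMap_qExpand _ q P

theorem red_qExpand (A : ValuationSubring Kbar) (P : LaurentSeries A) :
    S18.Vert.red A (qExpand A q P) = qExpand (kk A) q (S18.Vert.red A P) := coeffMap_qExpand _ q P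

theorem red_XA_pow (hq : q.Prime) (A : ValuationSubring Kbar) (hA : A.LiesOverPrime q)
    (X : LaurentSeries ℤ) :
    S18.Vert.red A (XA A X) ^ q = qExpand (kk A) q (S18.Vert.red A (XA A X)) := by
  have : Fact q.Prime := ⟨hq⟩
  have := charP_residueField A q hq hA
  rw [pow_char_eq_qExpand q, red_XA, coeffMap_coeffMap]
  congr 1
  exact coeffMap_congr (RingHom.ext_int _ _) X

theorem coe_al (x' : FN M) :
    ((heckeAlphaBar Kbar M q x' : FN (M * q)) : LaurentSeries Kbar) = (x' : LaurentSeries Kbar) :=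
  coe_heckeAlphaBar M q x'

theorem coe_be (x' : FN M) :
    ((heckeBetaBar Kbar M q x' : FN (M * q)) : LaurentSeries Kbar) =
      qExpand Kbar q (x' : LaurentSeries Kbar) :=
  coe_heckeBetaBar M q x'

theorem inc_XA_mem (A : ValuationSubring Kbar) {x' : FN M} {X : LaurentSeries ℤ}
    (hX : (x' : LaurentSeries Kbar) = coeffMap (Int.castRingHom Kbar) X) :
    inc A (XA A X) ∈ modularFunctionFieldBar (M * q) := by
  rw [inc_XA, ← hX, ← coe_al (q := q) x']
  exact (heckeAlphaBar Kbar M q x').2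

theorem inc_qExpand_XA_mem (A : ValuationSubring Kbar) {x' : FN M} {X : LaurentSeries ℤ}
    (hX : (x' : LaurentSeries Kbar) = coeffMap (Int.castRingHom Kbar) X) :
    inc A (qExpand A q (XA A X)) ∈ modularFunctionFieldBar (M * q) := by
  rw [inc_qExpand, inc_XA, ← hX, ← coe_be (q := q) x']
  exact (heckeBetaBar Kbar M q x').2

/-- the relation for `vv x'`. -/
theorem vv_mul (A : ValuationSubring Kbar) {x' : FN M} (h0 : x' ≠ 0) {X : LaurentSeries ℤ}
    (hX : (x' : LaurentSeries Kbar) = coeffMap (Int.castRingHom Kbar) X) :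
    ((vv (q := q) x' : FN (M * q)) : LaurentSeries Kbar) * inc A (XA A X ^ q) =
      inc A (qExpand A q (XA A X)) := by
  have h1 : heckeAlphaBar Kbar M q x' ≠ 0 := (map_ne_zero _).2 h0
  have h2 : vv (q := q) x' * heckeAlphaBar Kbar M q x' ^ q = heckeBetaBar Kbar M q x' := by
    rw [vv, div_mul_cancel₀ _ (pow_ne_zero q h1)]
  have h3 := congrArg (Subtype.val) h2
  rw [map_pow, inc_qExpand, inc_XA, ← hX, ← coe_be (q := q) x', ← h3]
  conv_lhs => rw [← coe_al (q := q) x']
  rfl

/-- the relation for `w (vv x')`. -/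
theorem w_vv_mul (A : ValuationSubring Kbar) {w : FN (M * q) ≃ₐ[Kbar] FN (M * q)}
    (hw : IsAL M q w) {x' : FN M} (h0 : x' ≠ 0) {X : LaurentSeries ℤ}
    (hX : (x' : LaurentSeries Kbar) = coeffMap (Int.castRingHom Kbar) X) :
    ((w (vv (q := q) x') : FN (M * q)) : LaurentSeries Kbar) *
      inc A (qExpand A q (XA A X) ^ q) = inc A (XA A X) := by
  have h1 : heckeBetaBar Kbar M q x' ≠ 0 := (map_ne_zero _).2 h0
  have h2 : w (vv (q := q) x') * heckeBetaBar Kbar M q x' ^ q = heckeAlphaBar Kbar M q x' := by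
    rw [vv, map_div₀, map_pow, hw.al, hw.be, div_mul_cancel₀ _ (pow_ne_zero q h1)]
  have h3 := congrArg (Subtype.val) h2
  rw [map_pow, inc_qExpand, inc_XA, ← hX, ← coe_be (q := q) x']
  conv_rhs => rw [← coe_al (q := q) x', ← h3]
  rfl

end VVAux

open VVAux

/-- Proof.  `X_A := coeffMap (Int.castRingHom A) X`; `α x' = inc X_A`, `β x' = inc (qExpand q X_A)`.
`vv x' * inc (X_A ^ q) = inc (qExpand q X_A)` and `red (X_A ^ q) ≠ 0`;
`w (vv x') = α x' / (β x') ^ q`, `w (vv x') * inc (qExpand q X_A ^ q) = inc X_A`.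
(`red X_A = coeffMap (ZMod q → k) (X mod q) ≠ 0`, `coeffMap` of an injective map is injective.) -/
theorem vv_mem_OO (hq : q.Prime) (A : ValuationSubring Kbar) (hA : A.LiesOverPrime q)
    {w : FN (M * q) ≃ₐ[Kbar] FN (M * q)} (hw : IsAL M q w) {x' : FN M} (hx : BaseOK M q x') :
    vv x' ∈ OO A (modularFunctionFieldBar (M * q)) w := by
  obtain ⟨X, hX, hX0⟩ := hx.ser
  have hr := red_XA_ne_zero hq A hA hX0
  refine mem_OO.2 ⟨?_, ?_⟩
  · refine ⟨qExpand A q (XA A X), XA A X ^ q, inc_qExpand_XA_mem A hX, ?_, ?_,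
      vv_mul A hx.ne_zero hX⟩
    · rw [map_pow]
      exact pow_mem (inc_XA_mem A hX) q
    · rw [map_pow]
      exact pow_ne_zero q hr
  · refine ⟨XA A X, qExpand A q (XA A X) ^ q, inc_XA_mem A hX, ?_, ?_,
      w_vv_mul A hw hx.ne_zero hX⟩
    · rw [map_pow]
      exact pow_mem (inc_qExpand_XA_mem A hX) q
    · rw [map_pow, red_qExpand]
      refine pow_ne_zero q ?_
      rw [Ne, map_eq_zero_iff _ (qExpand_injective q)]
      exact hr

/-- Proof.  `rho_spec` with `P = qExpand q X_A`, `Q = X_A ^ q`, and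
`red (X_A) ^ q = qExpand q (coeffMap frobenius (red X_A)) = qExpand q (red X_A)`
(`GAL.E.pow_char_eq_qExpand`; the coefficients of `red X_A` are images of integers, hence fixed by the
Frobenius). -/
theorem red2_vv_fst (hq : q.Prime) (A : ValuationSubring Kbar) (hA : A.LiesOverPrime q)
    {w : FN (M * q) ≃ₐ[Kbar] FN (M * q)} (hw : IsAL M q w) {x' : FN M} (hx : BaseOK M q x') :
    (red2 A (modularFunctionFieldBar (M * q)) w ⟨vv x', vv_mem_OO hq A hA hw hx⟩).1 = 1 := by
  obtain ⟨X, hX, hX0⟩ := hx.ser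
  have hr := red_XA_ne_zero hq A hA hX0
  rw [red2_fst]
  have h1 := rho_spec (A := A) (F := modularFunctionFieldBar (M * q))
    ⟨vv x', (vv_mem_OO hq A hA hw hx).1⟩ (P := qExpand A q (XA A X)) (Q := XA A X ^ q)
    (by rw [map_pow]; exact pow_ne_zero q hr) (vv_mul A hx.ne_zero hX)
  rw [map_pow, red_XA_pow hq A hA, red_qExpand] at h1
  have h2 : qExpand (kk A) q (S18.Vert.red A (XA A X)) ≠ 0 := by
    rw [Ne, map_eq_zero_iff _ (qExpand_injective q)]
    exact hr
  exact mul_right_cancel₀ h2 (h1.trans (one_mul _).symm)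

end Fermat.Agent.S34.Nodal.Inst

end
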