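/-
C1 nodal core, instantiation, block G (helper95): the fields `red_chart1`, `red_chart2`, `int1`,
`int2` of `Contracts` for `F = FN (M q)`, `F' = FN M` (assembly; the leaves are in the imported files).

* `traceData`   : the hypotheses of the trace trick (`TraceData`);
* `exists_rho_eq_FN` : (G3) every reduction at level `M q` is a reduction at level `M`;
* `red_chart1_FN`, `red_chart2_FN`, `int_FN` : the fields.
-/
import Fermat.Agent.S34.Nodal.Inst.G.TraceRed
import Fermat.Agent.S34.Nodal.Inst.G.Mod.Kron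
import Fermat.Agent.S34.Nodal.Inst.G.Mod.VV
import Fermat.Agent.S34.Nodal.Inst.G.Mod.TraceInt

set_option autoImplicit false

noncomputable section

namespace Fermat.Agent.S34.Nodal.Inst

open ModularCurve AlgebraicCurve Fermat.Agent.S18.Vert Fermat.Agent.S24 Fermat.Agent.S24.B
  Fermat.Agent.GAL Fermat.Agent.GAL.E

variable {M q : ℕ} [NeZero M] [NeZero q]

/-- The hypotheses of the trace trick. -/
theorem traceData (hq : q.Prime) (hqM : ¬ q ∣ M) (A : ValuationSubring Kbar)
    (hA : A.LiesOverPrime q) {w : FN (M * q) ≃ₐ[Kbar] FN (M * q)} (hw : IsAL M q w) :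
    TraceData A (modularFunctionFieldBar (M * q)) (modularFunctionFieldBar M) w q
      (traceAlpha M q) where
  val := isVal_FN A q hq hA M
  char := by
    have := charP_residueField A q hq hA
    exact CharP.cast_eq_zero _ q
  expansion := ⟨fun b => twist (zetaK q ^ b),
    fun b => isIntHom_twist A q hq hA _ (by
      rw [← pow_mul, mul_comm, pow_mul, (isPrimitiveRoot_zetaK q).pow_eq_one, one_pow]),
    fun y => qExpand_traceAlpha M q hq hqM (w : FN (M * q) →ₐ[Kbar] FN (M * q)) hw.al hw.be y⟩

/-- **G3**: every reduction at level `M q` is a reduction at level `M`. -/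
theorem exists_rho_eq_FN (hq : q.Prime) (hqM : ¬ q ∣ M) (A : ValuationSubring Kbar)
    (hA : A.LiesOverPrime q) {w : FN (M * q) ≃ₐ[Kbar] FN (M * q)} (hw : IsAL M q w)
    (y : gaussSubring A (modularFunctionFieldBar (M * q))) :
    ∃ y' : gaussSubring A (modularFunctionFieldBar M),
      rho A (modularFunctionFieldBar M) y' = rho A (modularFunctionFieldBar (M * q)) y :=
  (traceData hq hqM A hA hw).exists_rho_eq ⟨S34.kronX M q, kronX_mem_OO A hw⟩
    (red2_kronX_fst_ne_zero hq A hA hw) (kronX_small hq A hA hw) y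

/-- **The fields `int1`, `int2`**, from the same statement at level `M`. -/
theorem int_FN (hq : q.Prime) (hqM : ¬ q ∣ M) (A : ValuationSubring Kbar)
    (hA : A.LiesOverPrime q) {w : FN (M * q) ≃ₐ[Kbar] FN (M * q)} (hw : IsAL M q w) {x' : FN M}
    {n : ℕ}
    (hM : ∀ y : gaussSubring A (modularFunctionFieldBar M),
      rho A (modularFunctionFieldBar M) y ^ n ∈ bb A (modularFunctionFieldBar M) x' →
        rho A (modularFunctionFieldBar M) y ∈ bb A (modularFunctionFieldBar M) x')
    (y : gaussSubring A (modularFunctionFieldBar (M * q)))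
    (hy : rho A (modularFunctionFieldBar (M * q)) y ^ n ∈ bb A (modularFunctionFieldBar M) x') :
    rho A (modularFunctionFieldBar (M * q)) y ∈ bb A (modularFunctionFieldBar M) x' :=
  (traceData hq hqM A hA hw).int_of_level ⟨S34.kronX M q, kronX_mem_OO A hw⟩
    (red2_kronX_fst_ne_zero hq A hA hw) (kronX_small hq A hA hw) hM y hy

/-- **The field `red_chart1`.** -/
theorem red_chart1_FN (hq : q.Prime) (hqM : ¬ q ∣ M) (A : ValuationSubring Kbar)
    (hA : A.LiesOverPrime q) {w : FN (M * q) ≃ₐ[Kbar] FN (M * q)} (hw : IsAL M q w) {x' : FN M}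
    (hx : BaseOK M q x') (y : OO A (modularFunctionFieldBar (M * q)) w)
    (hy : (y : FN (M * q)) ∈ chart A (modularFunctionFieldBar (M * q)) w (xx x')) :
    (red2 A (modularFunctionFieldBar (M * q)) w y).1 ∈ bb A (modularFunctionFieldBar M) x' ∧
      (red2 A (modularFunctionFieldBar (M * q)) w y).2 ∈ bb A (modularFunctionFieldBar M) x' :=
  (traceData hq hqM A hA hw).red_chart1 (hw.w_w hq)
    (fun _ h => isIntegral_adjoin_map w (hw.w_xx x') h)
    (fun _ h => isIntegral_traceAlpha_of_xx hx h) y hy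

/-- **The field `red_chart2`.** -/
theorem red_chart2_FN (hq : q.Prime) (hqM : ¬ q ∣ M) (A : ValuationSubring Kbar)
    (hA : A.LiesOverPrime q) {w : FN (M * q) ≃ₐ[Kbar] FN (M * q)} (hw : IsAL M q w) {x' : FN M}
    (hx : BaseOK M q x') (y : OO A (modularFunctionFieldBar (M * q)) w)
    (hy : (y : FN (M * q)) ∈ chart A (modularFunctionFieldBar (M * q)) w (xx x')⁻¹) :
    (red2 A (modularFunctionFieldBar (M * q)) w y).1 ∈ bb A (modularFunctionFieldBar M) x'⁻¹ ∧
      (red2 A (modularFunctionFieldBar (M * q)) w y).2 ∈ bb A (modularFunctionFieldBar M) x'⁻¹ :=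
  (traceData hq hqM A hA hw).red_chart2 (hw.w_w hq)
    (fun _ h => isIntegral_adjoin_map w (by rw [map_inv₀, hw.w_xx]) h)
    ⟨vv x', vv_mem_OO hq A hA hw hx⟩ (red2_vv_fst hq A hA hw hx)
    (fun _ h => exists_isIntegral_traceAlpha_of_xx_inv hx h) y hy

end Fermat.Agent.S34.Nodal.Inst

end
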