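/-
C1 nodal core, instantiation, block G (helper95).  TASK G-M3: the Kronecker element
`ε = α j - (β j) ^ q` is integral at both valuations, a unit at `v_∞`, and small at `v_0`.
-/
import Fermat.Agent.S34.Nodal.Inst.G.Mod.Defs
import Fermat.Agent.S34.Nodal.Inst.G.Mod.Val
import Fermat.Agent.S34.Kron
import Fermat.Agent.C1.Approx

set_option autoImplicit false

noncomputable section

namespace Fermat.Agent.S34.Nodal.Inst

open ModularCurve AlgebraicCurve Fermat.Agent.S18.Vert Fermat.Agent.S24 Fermat.Agent.S24.B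
  Fermat.Agent.GAL Fermat.Agent.GAL.E

variable {M q : ℕ} [NeZero M] [NeZero q]

theorem IsAL.w_kronX {w : FN (M * q) ≃ₐ[Kbar] FN (M * q)} (hw : IsAL M q w) :
    w (S34.kronX M q) = S34.kronY M q := by
  rw [S34.kronX, S34.kronY, map_sub, map_pow, hw.al, hw.be]

theorem kronX_mem_gauss (A : ValuationSubring Kbar) :
    S34.kronX M q ∈ gaussSubring A (modularFunctionFieldBar (M * q)) := by
  have h : inc A (S34.serX q A) ∈ modularFunctionFieldBar (M * q) := by
    have := (S34.kronX M q).2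
    rwa [S34.coe_kronX M q A] at this
  have e : S34.kronX M q = ⟨inc A (S34.serX q A), h⟩ := Subtype.ext (S34.coe_kronX M q A)
  rw [e]
  exact inc_mem_gauss _ h

theorem kronY_mem_gauss (A : ValuationSubring Kbar) :
    S34.kronY M q ∈ gaussSubring A (modularFunctionFieldBar (M * q)) := by
  have h : inc A (S34.serY q A) ∈ modularFunctionFieldBar (M * q) := by
    have := (S34.kronY M q).2
    rwa [S34.coe_kronY M q A] at this
  have e : S34.kronY M q = ⟨inc A (S34.serY q A), h⟩ := Subtype.ext (S34.coe_kronY M q A)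
  rw [e]
  exact inc_mem_gauss _ h

theorem rho_kronX (A : ValuationSubring Kbar) :
    rho A (modularFunctionFieldBar (M * q)) ⟨S34.kronX M q, kronX_mem_gauss A⟩ =
      S18.Vert.red A (S34.serX q A) := by
  have h : inc A (S34.serX q A) ∈ modularFunctionFieldBar (M * q) := by
    have := (S34.kronX M q).2
    rwa [S34.coe_kronX M q A] at this
  have e : (⟨S34.kronX M q, kronX_mem_gauss A⟩ :
      gaussSubring A (modularFunctionFieldBar (M * q))) =
      ⟨⟨inc A (S34.serX q A), h⟩, inc_mem_gauss _ h⟩ :=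
    Subtype.ext (Subtype.ext (S34.coe_kronX M q A))
  rw [e, rho_inc]

/-- `ε = α j - (β j) ^ q` is integral at both valuations.
Proof: `S34.coe_kronX`, `S34.coe_kronY` (integral series), `w (kronX) = kronY`, `inc_mem_gauss`. -/
theorem kronX_mem_OO (A : ValuationSubring Kbar) {w : FN (M * q) ≃ₐ[Kbar] FN (M * q)}
    (hw : IsAL M q w) : S34.kronX M q ∈ OO A (modularFunctionFieldBar (M * q)) w := by
  refine mem_OO.2 ⟨kronX_mem_gauss A, ?_⟩
  rw [hw.w_kronX]
  exact kronY_mem_gauss A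

/-- Proof: `rho_inc`, `S34.red_serX`. -/
theorem red2_kronX_fst_ne_zero (hq : q.Prime) (A : ValuationSubring Kbar) (hA : A.LiesOverPrime q)
    {w : FN (M * q) ≃ₐ[Kbar] FN (M * q)} (hw : IsAL M q w) :
    (red2 A (modularFunctionFieldBar (M * q)) w ⟨S34.kronX M q, kronX_mem_OO A hw⟩).1 ≠ 0 := by
  rw [red2_fst]
  have := rho_kronX (M := M) (q := q) A
  rw [this]
  exact S34.red_serX hq hA

/-- All the coefficients of `serY` are divisible by `q`. -/
theorem kron_exists_serY_eq (hq : q.Prime) (A : ValuationSubring Kbar) :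
    ∃ S : LaurentSeries A, S34.serY q A = HahnSeries.C ((q : ℕ) : A) * S := by
  have : Fact q.Prime := ⟨hq⟩
  obtain ⟨Y, hY⟩ : ∃ Y : LaurentSeries ℤ, Y = qExpand ℤ q (jqModC ℤ) - jqModC ℤ ^ q := ⟨_, rfl⟩
  have h1 : coeffMap (Int.castRingHom (ZMod q)) Y = 0 := by
    rw [hY, map_sub, map_pow, coeffMap_qExpand_aux, coeffMap_jqModC, S34.jqModC_pow_char hq,
      sub_self]
  have h2 : ∀ k, (q : ℤ) ∣ Y.coeff k := by
    intro k
    have := congrArg (fun z => HahnSeries.coeff z k) h1
    simp only [coeffMap_coeff, HahnSeries.coeff_zero] at this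
    exact (ZMod.intCast_zmod_eq_zero_iff_dvd _ _).1 this
  let S₀ : LaurentSeries ℤ := Y.map (⟨fun n => n / q, by simp⟩ : ZeroHom ℤ ℤ)
  have h3 : Y = HahnSeries.C (q : ℤ) * S₀ := by
    ext k
    rw [HahnSeries.C_apply, HahnSeries.coeff_single_mul, sub_zero]
    show Y.coeff k = q * (Y.coeff k / q)
    rw [Int.mul_ediv_cancel' (h2 k)]
  refine ⟨coeffMap (Int.castRingHom A) S₀, ?_⟩
  have h4 : S34.serY q A = coeffMap (Int.castRingHom A) Y := by
    rw [hY, S34.serY, map_sub, map_pow, coeffMap_qExpand_aux, coeffMap_jqModC]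
  rw [h4, h3, map_mul]
  congr 1
  rw [HahnSeries.C_apply, coeffMap_single, HahnSeries.C_apply]
  simp

/-- Proof: `w (ε ^ m * y) = kronY ^ m * w y`.  `w y = c * (P / Q)` (`GAL.E.exists_scaling`; the case
`y = 0` is trivial).  All the coefficients of `S34.serY q A` are divisible by `q` in `A` (they are
images of integers, and they vanish modulo `q`: `S34.red_serY` for the valuation ring, or directly
over `ZMod q`; alternatively: `RedS kronY c₁ r₁` with `c₁ ∈ A.nonunits` as in `C1/Sep.lean`), and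
`c * c₁ ^ m ∈ A` for `m` large (rank one: `c` is algebraic over `ℚ`, so `a c` is integral over `ℤ`
for some nonzero integer `a = q ^ s a'`, `q ∤ a'`; cf. `C1.exists_pow_mul_mem_nonunits`).
Conclude with `mem_gauss_FN_of_hasRed`. -/
theorem kronX_small (hq : q.Prime) (A : ValuationSubring Kbar) (hA : A.LiesOverPrime q)
    {w : FN (M * q) ≃ₐ[Kbar] FN (M * q)} (hw : IsAL M q w) (y : FN (M * q)) :
    ∃ m : ℕ, w (S34.kronX M q ^ m * y) ∈ gaussSubring A (modularFunctionFieldBar (M * q)) := by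
  rcases eq_or_ne (w y) 0 with h0 | h0
  · exact ⟨0, by rw [map_mul, h0, mul_zero]; exact zero_mem _⟩
  obtain ⟨c, P, Q, hP, hQ, hc, hrP, hrQ, he⟩ := exists_scaling A q hq hA (M * q) (w y) h0
  obtain ⟨S, hS⟩ := kron_exists_serY_eq hq A
  obtain ⟨m, hm⟩ := C1.exists_pow_mul_mem_nonunits hq hA (q : Kbar) hA c
  have hcm : c * (q : Kbar) ^ m ∈ A := A.nonunits_subset (hm m le_rfl)
  refine ⟨m, ?_⟩
  rw [map_mul, map_pow, hw.w_kronX]
  have hQ0 : inc A Q ≠ 0 := inc_ne_zero' hrQ
  have hser : ((S34.kronY M q ^ m * w y : FN (M * q)) : LaurentSeries Kbar) * inc A Q =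
      inc A (HahnSeries.C (⟨c * (q : Kbar) ^ m, hcm⟩ : A) * S ^ m * P) := by
    rw [he]
    show ((S34.kronY M q : FN (M * q)) : LaurentSeries Kbar) ^ m *
      (algebraMap Kbar (LaurentSeries Kbar) c * (inc A P / inc A Q)) * inc A Q = _
    rw [S34.coe_kronY M q A]
    show (inc A (S34.serY q A)) ^ m * _ * _ = _
    rw [hS, map_mul, map_mul, map_mul, map_pow, inc_C, inc_C, mul_pow, ← map_pow]
    have e1 : (((⟨c * (q : Kbar) ^ m, hcm⟩ : A) : Kbar)) = c * (((q : ℕ) : A) : Kbar) ^ m := by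
      simp
    rw [e1, map_mul]
    field_simp
  refine ⟨HahnSeries.C (⟨c * (q : Kbar) ^ m, hcm⟩ : A) * S ^ m * P, Q, ?_, hQ, hrQ, hser⟩
  rw [← hser]
  exact mul_mem (Subtype.mem _) hQ

end Fermat.Agent.S34.Nodal.Inst

end
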